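/-
S26 / block F, node F2, leaf D (sub-architect helper68, proof helper273): lifts of a basis of the cotangent
space generate the maximal ideal and are independent modulo `𝔪 ^ 2`.
-/
import Mathlib

set_option autoImplicit false

namespace Fermat.Agent.S26.F.FlatMap

open IsLocalRing

/-- lifts of a basis of the cotangent space. -/
theorem exists_coords {K O : Type*} [Field K] [CommRing O] [IsLocalRing O] [IsNoetherianRing O]
    [Algebra K O] :
    ∃ (g : ℕ) (t : Fin g → O), Ideal.span (Set.range t) = maximalIdeal O ∧
      ∀ b : Fin g → K, ∑ i, b i • t i ∈ maximalIdeal O ^ 2 → b = 0 := by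
  classical
  let B := Module.finBasis (ResidueField O) (CotangentSpace O)
  choose t' ht' using fun i => (maximalIdeal O).toCotangent_surjective (B i)
  refine ⟨Module.finrank (ResidueField O) (CotangentSpace O), fun i => (t' i : O), ?_, ?_⟩
  · have h1 : Submodule.span (ResidueField O)
        ((maximalIdeal O).toCotangent '' (Set.range t')) = ⊤ := by
      rw [← Set.range_comp]
      have h0 : (maximalIdeal O).toCotangent ∘ t' = B := funext ht'
      rw [h0]
      exact B.span_eq
    rw [CotangentSpace.span_image_eq_top_iff] at h1
    have h2 := congrArg (Submodule.map (maximalIdeal O).subtype) h1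
    rw [Submodule.map_span, Submodule.map_subtype_top, ← Set.range_comp] at h2
    exact h2
  · intro b hb
    have h1 : (maximalIdeal O).toCotangent (∑ i, algebraMap K O (b i) • t' i) = 0 := by
      rw [Ideal.toCotangent_eq_zero]
      have h0 : ((∑ i, algebraMap K O (b i) • t' i : maximalIdeal O) : O) =
          ∑ i, b i • (t' i : O) := by
        rw [AddSubmonoidClass.coe_finsetSum]
        refine Finset.sum_congr rfl fun i _ => ?_
        rw [Algebra.smul_def]
        rfl
      rw [h0]
      exact hb
    rw [map_sum] at h1
    have h2 : ∑ i, residue O (algebraMap K O (b i)) • B i = 0 := by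
      rw [← h1]
      refine Finset.sum_congr rfl fun i _ => ?_
      rw [map_smul, ht']
      rfl
    have h3 := Fintype.linearIndependent_iff.1 B.linearIndependent _ h2
    funext i
    exact (map_eq_zero ((residue O).comp (algebraMap K O))).1 (h3 i)

end Fermat.Agent.S26.F.FlatMap
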