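/-
S26 / block F, node F2 (sub-architect helper68), leaf E (task S26-F2-E, helper233).  Mathlib only.
`aeval t f ∈ 𝔪²` implies `f ∈ (X)²` when the `t i ∈ 𝔪` are linearly independent modulo `𝔪²`.
-/
import Mathlib

set_option autoImplicit false

namespace Fermat.Agent.S26.F.FlatMap

open IsLocalRing

/-- exponents of degree `< 2` -/
private theorem Deg2_cases {σ : Type*} (x : σ →₀ ℕ) (h : Finsupp.degree x < 2) :
    x = 0 ∨ ∃ i, x = Finsupp.single i 1 := by
  classical
  by_cases hx : x = 0
  · exact Or.inl hx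
  · right
    obtain ⟨i, hi⟩ := DFunLike.ne_iff.mp hx
    refine ⟨i, ?_⟩
    have hle : Finsupp.single i 1 ≤ x := by
      rw [Finsupp.single_le_iff]
      exact Nat.one_le_iff_ne_zero.mpr hi
    have hx' : x = Finsupp.single i 1 + (x - Finsupp.single i 1) := (add_tsub_cancel_of_le hle).symm
    have hdeg : Finsupp.degree (x - Finsupp.single i 1) = 0 := by
      rw [hx', map_add, Finsupp.degree_single] at h
      omega
    rw [Finsupp.degree_eq_zero_iff] at hdeg
    rw [hdeg, add_zero] at hx'
    exact hx'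

theorem mem_sq_of_aeval_mem_sq {K O : Type*} [Field K] [CommRing O] [IsLocalRing O] [Algebra K O]
    {g : ℕ} (t : Fin g → O) (ht : ∀ i, t i ∈ maximalIdeal O)
    (hind : ∀ b : Fin g → K, ∑ i, b i • t i ∈ maximalIdeal O ^ 2 → b = 0)
    (f : MvPolynomial (Fin g) K) (hf : MvPolynomial.aeval t f ∈ maximalIdeal O ^ 2) :
    f ∈ MvPolynomial.idealOfVars (Fin g) K ^ 2 := by
  classical
  -- the remainder
  have hr : f - (MvPolynomial.C (f.coeff 0) +
      ∑ i, MvPolynomial.C (f.coeff (Finsupp.single i 1)) * MvPolynomial.X i) ∈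
      MvPolynomial.idealOfVars (Fin g) K ^ 2 := by
    rw [MvPolynomial.mem_pow_idealOfVars_iff']
    intro x hx
    rcases Deg2_cases x hx with rfl | ⟨j, rfl⟩
    · simp [MvPolynomial.coeff_sum, MvPolynomial.coeff_C_mul]
    · have h0 : (0 : Fin g →₀ ℕ) ≠ Finsupp.single j 1 := by
        intro h
        have := DFunLike.congr_fun h j
        simp at this
      simp [MvPolynomial.coeff_sum, MvPolynomial.coeff_C_mul, MvPolynomial.coeff_X',
        MvPolynomial.coeff_C, h0, Finsupp.single_left_inj]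
  -- `aeval t` maps `(X)²` into `𝔪²`
  have hmap : ∀ r ∈ MvPolynomial.idealOfVars (Fin g) K ^ 2,
      MvPolynomial.aeval t r ∈ maximalIdeal O ^ 2 := by
    intro r hr
    have h1 : (MvPolynomial.idealOfVars (Fin g) K).map
        (MvPolynomial.aeval t : MvPolynomial (Fin g) K →ₐ[K] O) ≤ maximalIdeal O := by
      rw [Ideal.map_span, Ideal.span_le]
      rintro _ ⟨_, ⟨i, rfl⟩, rfl⟩
      change MvPolynomial.aeval t (MvPolynomial.X i) ∈ maximalIdeal O
      rw [MvPolynomial.aeval_X]
      exact ht i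
    have h2 := Ideal.mem_map_of_mem (MvPolynomial.aeval t : MvPolynomial (Fin g) K →ₐ[K] O) hr
    rw [Ideal.map_pow] at h2
    exact Ideal.pow_right_mono h1 2 h2
  have hlin : algebraMap K O (f.coeff 0) + ∑ i, f.coeff (Finsupp.single i 1) • t i ∈
      maximalIdeal O ^ 2 := by
    have h1 := (maximalIdeal O ^ 2).sub_mem hf (hmap _ hr)
    have h2 : MvPolynomial.aeval t f - MvPolynomial.aeval t (f - (MvPolynomial.C (f.coeff 0) +
        ∑ i, MvPolynomial.C (f.coeff (Finsupp.single i 1)) * MvPolynomial.X i))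
        = algebraMap K O (f.coeff 0) + ∑ i, f.coeff (Finsupp.single i 1) • t i := by
      rw [map_sub, sub_sub_cancel, map_add, MvPolynomial.aeval_C, map_sum]
      congr 1
      refine Finset.sum_congr rfl fun i _ => ?_
      rw [map_mul, MvPolynomial.aeval_C, MvPolynomial.aeval_X, Algebra.smul_def]
    rwa [h2] at h1
  have hsum : ∑ i, f.coeff (Finsupp.single i 1) • t i ∈ maximalIdeal O :=
    Ideal.sum_mem _ fun i _ => by
      rw [Algebra.smul_def]
      exact Ideal.mul_mem_left _ _ (ht i)
  have hc : f.coeff 0 = 0 := by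
    by_contra hc
    have h1 : algebraMap K O (f.coeff 0) ∈ maximalIdeal O := by
      have h2 := (maximalIdeal O).sub_mem (Ideal.pow_le_self two_ne_zero hlin) hsum
      rwa [add_sub_cancel_right] at h2
    exact (mem_maximalIdeal _).mp h1 ((IsUnit.mk0 _ hc).map (algebraMap K O))
  rw [hc, map_zero, zero_add] at hlin
  have hb := hind _ hlin
  have hb' : ∀ i, f.coeff (Finsupp.single i 1) = 0 := fun i => congrFun hb i
  simpa [hc, hb'] using hr

end Fermat.Agent.S26.F.FlatMap
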