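/-
S26 / block F, node F2 (sub-architect helper68), leaf A (task 3436): `P → O/𝔪^n` is onto.
-/
import Mathlib

set_option autoImplicit false

universe u

namespace Fermat.Agent.S26.F.FlatMap

open IsLocalRing

/-- A0.  (`𝔪^k = (I^k).map π = span π(I^k)`, `Submodule.span_induction`: `y = ∑ o_j π(a_j)`,
`o_j = π(c_j) + m_j`, `h = ∑ c_j a_j`.) -/
theorem exists_mem_pow_sub_mem_pow_succ {P O : Type*} [CommRing P] [CommRing O] (π : P →+* O)
    (I : Ideal P) (𝔪 : Ideal O) (hmap : I.map π = 𝔪) (hsurj : ∀ x : O, ∃ f : P, x - π f ∈ 𝔪) (k : ℕ)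
    (y : O) (hy : y ∈ 𝔪 ^ k) : ∃ h ∈ I ^ k, y - π h ∈ 𝔪 ^ (k + 1) := by
  have hpow : (I ^ k).map π = 𝔪 ^ k := by rw [Ideal.map_pow, hmap]
  have hy' : y ∈ Submodule.span O (π '' (I ^ k : Ideal P)) := by
    have h1 : y ∈ (I ^ k).map π := by rw [hpow]; exact hy
    exact h1
  induction hy' using Submodule.span_induction with
  | mem x hx =>
    obtain ⟨a, ha, rfl⟩ := hx
    exact ⟨a, ha, by rw [sub_self]; exact Ideal.zero_mem _⟩
  | zero => exact ⟨0, Ideal.zero_mem _, by rw [map_zero, sub_self]; exact Ideal.zero_mem _⟩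
  | add x z hx hz ihx ihz =>
    have hxm : x ∈ 𝔪 ^ k := by rw [← hpow]; exact hx
    have hzm : z ∈ 𝔪 ^ k := by rw [← hpow]; exact hz
    obtain ⟨h₁, hh₁, e₁⟩ := ihx hxm
    obtain ⟨h₂, hh₂, e₂⟩ := ihz hzm
    refine ⟨h₁ + h₂, Ideal.add_mem _ hh₁ hh₂, ?_⟩
    have e : x + z - π (h₁ + h₂) = (x - π h₁) + (z - π h₂) := by rw [map_add]; ring
    rw [e]
    exact Ideal.add_mem _ e₁ e₂
  | smul o x hx ih =>
    have hxm : x ∈ 𝔪 ^ k := by rw [← hpow]; exact hx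
    obtain ⟨h, hh, e⟩ := ih hxm
    obtain ⟨c, hc⟩ := hsurj o
    refine ⟨c * h, Ideal.mul_mem_left _ _ hh, ?_⟩
    have e' : o • x - π (c * h) = π c * (x - π h) + (o - π c) * x := by
      rw [map_mul, smul_eq_mul]; ring
    rw [e']
    refine Ideal.add_mem _ (Ideal.mul_mem_left _ _ e) ?_
    rw [pow_succ']
    exact Ideal.mul_mem_mul hc hxm

/-- A. `P → O/𝔪^n` is onto.  (induction on `n`, A0.) -/
theorem exists_sub_mem_pow {P O : Type*} [CommRing P] [CommRing O] (π : P →+* O) (I : Ideal P)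
    (𝔪 : Ideal O) (hmap : I.map π = 𝔪) (hsurj : ∀ x : O, ∃ f : P, x - π f ∈ 𝔪) (n : ℕ) (x : O) :
    ∃ f : P, x - π f ∈ 𝔪 ^ n := by
  induction n with
  | zero => exact ⟨0, by rw [pow_zero, Ideal.one_eq_top]; exact Submodule.mem_top⟩
  | succ n ih =>
    obtain ⟨f, hf⟩ := ih
    obtain ⟨h, -, e⟩ := exists_mem_pow_sub_mem_pow_succ π I 𝔪 hmap hsurj n _ hf
    refine ⟨f + h, ?_⟩
    have e' : x - π (f + h) = x - π f - π h := by rw [map_add]; ring
    rw [e']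
    exact e

end Fermat.Agent.S26.F.FlatMap
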