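/-
S26 / block F, node F2, leaf B (helper68): `P/I^n → O/𝔪^n` is injective when `O` is formally smooth
over `K`, `I O = 𝔪`, `P → O/𝔪` is onto and `P/I² → O/𝔪²` is injective.
Lift `O → O/𝔪^n` along the surjection `P/I^n → O/𝔪^n` (nilpotent kernel) to `σ : O → P/I^n`; then
`σ ∘ π ≡ id` modulo `I²`, and such an endomorphism of `P/I^n` is injective.
-/
import Mathlib
import Fermat.Agent.S26.F.FlatMap.Surj

set_option autoImplicit false

namespace Fermat.Agent.S26.F.FlatMap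

/-- B1. A ring homomorphism `θ : P → B` which agrees with the surjection `q` modulo `J²`,
`J = q(I) B`, agrees with `q` on `I^k` modulo `J^(k+1)`. -/
theorem sub_mem_pow_succ {P B : Type*} [CommRing P] [CommRing B] (q θ : P →+* B) (I : Ideal P)
    (h : ∀ f, θ f - q f ∈ (I.map q) ^ 2) (k : ℕ) (f : P) (hf : f ∈ I ^ k) :
    θ f - q f ∈ (I.map q) ^ (k + 1) := by
  have hθ : ∀ a ∈ I, θ a ∈ I.map q := by
    intro a ha
    have h1 : θ a - q a ∈ I.map q := Ideal.pow_le_self two_ne_zero (h a)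
    have h2 : q a ∈ I.map q := Ideal.mem_map_of_mem q ha
    have := add_mem h1 h2
    rwa [sub_add_cancel] at this
  induction k generalizing f with
  | zero =>
    rw [zero_add, pow_one]
    exact Ideal.pow_le_self two_ne_zero (h f)
  | succ k ih =>
    rw [pow_succ'] at hf
    refine Submodule.mul_induction_on hf ?_ ?_
    · intro a ha b hb
      have e : θ (a * b) - q (a * b) = θ a * (θ b - q b) + (θ a - q a) * q b := by
        rw [map_mul, map_mul]; ring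
      rw [e]
      refine add_mem ?_ ?_
      · rw [pow_succ' _ (k + 1)]
        exact Ideal.mul_mem_mul (hθ a ha) (ih b hb)
      · have hqb : q b ∈ (I.map q) ^ k := by
          rw [← Ideal.map_pow]; exact Ideal.mem_map_of_mem q hb
        have : (I.map q) ^ (k + 1 + 1) = (I.map q) ^ 2 * (I.map q) ^ k := by
          rw [← pow_add]; congr 1; omega
        rw [this]
        exact Ideal.mul_mem_mul (h a) hqb
    · intro x y hx hy
      have e : θ (x + y) - q (x + y) = (θ x - q x) + (θ y - q y) := by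
        rw [map_add, map_add]; ring
      rw [e]
      exact add_mem hx hy

/-- B2, the case `n ≥ 2`. -/
private theorem inj_aux {K P O : Type*} [CommRing K] [CommRing P] [CommRing O] [Algebra K P]
    [Algebra K O] [Algebra.FormallySmooth K O] (π : P →ₐ[K] O) (I : Ideal P) (𝔪 : Ideal O)
    (hmap : I.map π = 𝔪) (hsurj : ∀ x : O, ∃ f : P, x - π f ∈ 𝔪)
    (h2 : ∀ f : P, π f ∈ 𝔪 ^ 2 → f ∈ I ^ 2) (n : ℕ) (hn : 2 ≤ n) (f : P) (hf : π f ∈ 𝔪 ^ n) :
    f ∈ I ^ n := by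
  -- the quotients
  let q : P →ₐ[K] P ⧸ I ^ n := Ideal.Quotient.mkₐ K (I ^ n)
  have hq : Function.Surjective q := Ideal.Quotient.mkₐ_surjective K _
  let r : O →ₐ[K] O ⧸ 𝔪 ^ n := Ideal.Quotient.mkₐ K (𝔪 ^ n)
  have hle : ∀ a ∈ I ^ n, (r.comp π) a = 0 := by
    intro a ha
    change Ideal.Quotient.mk (𝔪 ^ n) (π a) = 0
    rw [Ideal.Quotient.eq_zero_iff_mem, ← hmap, ← Ideal.map_pow]
    exact Ideal.mem_map_of_mem _ ha
  let πn : (P ⧸ I ^ n) →ₐ[K] O ⧸ 𝔪 ^ n := Ideal.Quotient.liftₐ (I ^ n) (r.comp π) hle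
  have hπn : ∀ a, πn (q a) = r (π a) := fun a => rfl
  set J : Ideal (P ⧸ I ^ n) := I.map (q : P →+* P ⧸ I ^ n) with hJ
  have hJn : ∀ m, n ≤ m → J ^ m = ⊥ := by
    intro m hm
    rw [hJ, ← Ideal.map_pow, eq_bot_iff]
    refine (Ideal.map_mono (Ideal.pow_le_pow_right hm)).trans ?_
    rw [Ideal.map_le_iff_le_comap]
    intro a ha
    exact Ideal.Quotient.eq_zero_iff_mem.2 ha
  have hπn_surj : Function.Surjective πn := by
    intro y
    obtain ⟨x, rfl⟩ := Ideal.Quotient.mk_surjective y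
    obtain ⟨a, ha⟩ := exists_sub_mem_pow (π : P →+* O) I 𝔪 hmap hsurj n x
    refine ⟨q a, ?_⟩
    rw [hπn]
    exact ((Ideal.Quotient.mk_eq_mk_iff_sub_mem _ _).2 ha).symm
  have hker : RingHom.ker (πn : (P ⧸ I ^ n) →+* O ⧸ 𝔪 ^ n) ≤ J ^ 2 := by
    intro b hb
    obtain ⟨a, rfl⟩ := hq b
    have h0 : r (π a) = 0 := hb
    have h1 : π a ∈ 𝔪 ^ n := Ideal.Quotient.eq_zero_iff_mem.1 h0
    have h3 : a ∈ I ^ 2 := h2 a (Ideal.pow_le_pow_right hn h1)
    rw [hJ, ← Ideal.map_pow]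
    exact Ideal.mem_map_of_mem _ h3
  have hnil : IsNilpotent (RingHom.ker (πn : (P ⧸ I ^ n) →+* O ⧸ 𝔪 ^ n)) := by
    refine ⟨n, ?_⟩
    rw [Submodule.zero_eq_bot, eq_bot_iff]
    refine (Ideal.pow_right_mono hker n).trans ?_
    rw [← pow_mul, hJn _ (by nlinarith)]
  let σ : O →ₐ[K] P ⧸ I ^ n := Algebra.FormallySmooth.liftOfSurjective r πn hπn_surj hnil
  have hσ : ∀ x, πn (σ x) = r x := Algebra.FormallySmooth.liftOfSurjective_apply r πn hπn_surj hnil
  let θ : P →ₐ[K] P ⧸ I ^ n := σ.comp π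
  have hθ : ∀ a, (θ : P →+* P ⧸ I ^ n) a - (q : P →+* P ⧸ I ^ n) a ∈ J ^ 2 := by
    intro a
    apply hker
    change πn (σ (π a) - q a) = 0
    rw [map_sub, hσ, hπn, sub_self]
  have hkey := sub_mem_pow_succ (q : P →+* P ⧸ I ^ n) (θ : P →+* P ⧸ I ^ n) I hθ
  -- `σ` maps `𝔪` into `J`
  have hσ𝔪 : 𝔪.map (σ : O →+* P ⧸ I ^ n) ≤ J := by
    rw [Ideal.map_le_iff_le_comap, ← hmap, Ideal.map_le_iff_le_comap]
    intro a ha
    change (θ : P →+* P ⧸ I ^ n) a ∈ J
    have h1 := hkey 0 a (by simp)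
    rw [zero_add, pow_one] at h1
    have h3 : (q : P →+* P ⧸ I ^ n) a ∈ J := Ideal.mem_map_of_mem _ ha
    have := add_mem h1 h3
    rwa [sub_add_cancel] at this
  have hθf : (θ : P →+* P ⧸ I ^ n) f = 0 := by
    have h1 : (σ : O →+* P ⧸ I ^ n) (π f) ∈ (𝔪 ^ n).map (σ : O →+* P ⧸ I ^ n) :=
      Ideal.mem_map_of_mem _ hf
    rw [Ideal.map_pow] at h1
    have h3 := Ideal.pow_right_mono hσ𝔪 n h1
    rw [hJn n le_rfl] at h3
    exact h3
  -- climb
  have hclimb : ∀ k, k ≤ n → f ∈ I ^ k := by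
    intro k
    induction k with
    | zero => intro _; simp
    | succ k ih =>
      intro hk
      have h1 := hkey k f (ih (by omega))
      rw [hθf, zero_sub, neg_mem_iff, ← Ideal.map_pow,
        Ideal.mem_map_iff_of_surjective (q : P →+* P ⧸ I ^ n) hq] at h1
      obtain ⟨a, ha, hqa⟩ := h1
      have h3 : a - f ∈ I ^ n := (Ideal.Quotient.mk_eq_mk_iff_sub_mem _ _).1 hqa
      have h4 : a - f ∈ I ^ (k + 1) := Ideal.pow_le_pow_right hk h3
      have := sub_mem ha h4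
      rwa [sub_sub_cancel] at this
  exact hclimb n le_rfl

/-- B2. -/
theorem mem_pow_of_map_mem_pow {K P O : Type*} [CommRing K] [CommRing P] [CommRing O] [Algebra K P]
    [Algebra K O] [Algebra.FormallySmooth K O] (π : P →ₐ[K] O) (I : Ideal P) (𝔪 : Ideal O)
    (hmap : I.map π = 𝔪) (hsurj : ∀ x : O, ∃ f : P, x - π f ∈ 𝔪)
    (h2 : ∀ f : P, π f ∈ 𝔪 ^ 2 → f ∈ I ^ 2) (n : ℕ) (f : P) (hf : π f ∈ 𝔪 ^ n) : f ∈ I ^ n := by
  rcases Nat.lt_or_ge n 2 with hn | hn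
  · interval_cases n
    · simp
    · obtain ⟨h, hh, hd⟩ := exists_mem_pow_sub_mem_pow_succ (π : P →+* O) I 𝔪 hmap hsurj 1 (π f) hf
      have h1 : π (f - h) ∈ 𝔪 ^ 2 := by rw [map_sub]; exact hd
      have h3 : f - h ∈ I ^ 1 := Ideal.pow_le_pow_right one_le_two (h2 _ h1)
      have := add_mem h3 hh
      rwa [sub_add_cancel] at this
  · exact inj_aux π I 𝔪 hmap hsurj h2 n hn f hf

end Fermat.Agent.S26.F.FlatMap
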