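/-
S26 / block F, node F2, leaf F (helper68): a noetherian local `K`-algebra `O`, formally smooth over
the field `K`, with residue field `K`, admits a flat local homomorphism to `K[[X_1 … X_g]]`
(its completion is a power series ring).
-/
import Mathlib
import Fermat.Agent.S26.F.FlatMap.Surj
import Fermat.Agent.S26.F.FlatMap.Inj
import Fermat.Agent.S26.F.FlatMap.Coord
import Fermat.Agent.S26.F.FlatMap.Deg2
import Fermat.Agent.S26.UFD.CompletionIso

set_option autoImplicit false

namespace Fermat.Agent.S26.F.FlatMap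

open IsLocalRing

theorem exists_flat_local_hom_of_local {K O : Type*} [Field K] [CommRing O] [IsLocalRing O]
    [IsNoetherianRing O] [Algebra K O] [Algebra.FormallySmooth K O]
    (hres : Function.Surjective (algebraMap K (ResidueField O))) :
    ∃ (g : ℕ) (φ : O →+* MvPowerSeries (Fin g) K), φ.Flat ∧ IsLocalHom φ := by
  obtain ⟨g, t, hspan, hind⟩ := exists_coords (K := K) (O := O)
  have ht : ∀ i, t i ∈ maximalIdeal O := fun i => by
    rw [← hspan]; exact Ideal.subset_span ⟨i, rfl⟩
  let π : MvPolynomial (Fin g) K →ₐ[K] O := MvPolynomial.aeval t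
  have hmap : (MvPolynomial.idealOfVars (Fin g) K).map π = maximalIdeal O := by
    rw [Ideal.map_span, ← Set.range_comp, ← hspan]
    congr 2
    funext i
    exact MvPolynomial.aeval_X t i
  have hsurj : ∀ x : O, ∃ f : MvPolynomial (Fin g) K, x - π f ∈ maximalIdeal O := by
    intro x
    obtain ⟨c, hc⟩ := hres (residue O x)
    refine ⟨MvPolynomial.C c, ?_⟩
    rw [← residue_eq_zero_iff, map_sub, ← hc, sub_eq_zero, MvPolynomial.aeval_C]
    rfl
  have hIJ : ∀ k, MvPolynomial.idealOfVars (Fin g) K ^ k ≤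
      (maximalIdeal O ^ k).comap (π : MvPolynomial (Fin g) K →+* O) := by
    intro k
    rw [← Ideal.map_le_iff_le_comap, Ideal.map_pow]
    exact (Ideal.pow_right_mono hmap.le k)
  have hbij : ∀ k, Function.Bijective (Ideal.quotientMap (maximalIdeal O ^ k)
      (π : MvPolynomial (Fin g) K →+* O) (hIJ k)) := by
    intro k
    constructor
    · rw [injective_iff_map_eq_zero]
      intro a ha
      obtain ⟨f, rfl⟩ := Ideal.Quotient.mk_surjective a
      rw [Ideal.quotientMap_mk, Ideal.Quotient.eq_zero_iff_mem] at ha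
      rw [Ideal.Quotient.eq_zero_iff_mem]
      exact mem_pow_of_map_mem_pow π _ _ hmap hsurj (mem_sq_of_aeval_mem_sq t ht hind) k f ha
    · intro y
      obtain ⟨x, rfl⟩ := Ideal.Quotient.mk_surjective y
      obtain ⟨f, hf⟩ := exists_sub_mem_pow (π : MvPolynomial (Fin g) K →+* O) _ _ hmap hsurj k x
      refine ⟨Ideal.Quotient.mk _ f, ?_⟩
      rw [Ideal.quotientMap_mk]
      exact ((Ideal.Quotient.mk_eq_mk_iff_sub_mem _ _).2 hf).symm
  obtain ⟨e⟩ := UFD.nonempty_adicCompletion_ringEquiv _ _ (π : MvPolynomial (Fin g) K →+* O) _ _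
    hIJ hbij
  let e' : AdicCompletion (maximalIdeal O) O ≃+* MvPowerSeries (Fin g) K :=
    e.symm.trans (MvPowerSeries.toAdicCompletionAlgEquiv (Fin g) K).symm.toRingEquiv
  refine ⟨g, (e' : AdicCompletion (maximalIdeal O) O →+* MvPowerSeries (Fin g) K).comp
    (algebraMap O (AdicCompletion (maximalIdeal O) O)), ?_, ?_⟩
  · exact RingHom.Flat.comp (RingHom.flat_algebraMap_iff.2 inferInstance)
      (RingHom.Flat.of_bijective e'.bijective)
  · exact RingHom.isLocalHom_comp _ _

end Fermat.Agent.S26.F.FlatMap
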