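/-
S26 / block F, node F2, leaf G (sub-architect helper68, proof helper14).  Mathlib only.
The residue field of the local ring at a rational maximal ideal consists of constants.
-/
import Mathlib

set_option autoImplicit false

namespace Fermat.Agent.S26.F.FlatMap

open IsLocalRing

theorem surjective_algebraMap_residueField {K S : Type*} [Field K] [CommRing S] [Algebra K S]
    (𝔪 : Ideal S) [𝔪.IsMaximal] (h𝔪 : Function.Surjective (algebraMap K (S ⧸ 𝔪))) :
    Function.Surjective (algebraMap K (ResidueField (Localization.AtPrime 𝔪))) := by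
  intro x
  obtain ⟨r, rfl⟩ := residue_surjective x
  have hunder : (maximalIdeal (Localization.AtPrime 𝔪)).under S = 𝔪 :=
    IsLocalization.AtPrime.under_maximalIdeal (Localization.AtPrime 𝔪) 𝔪
  have hsurj := IsLocalization.surjective_quotientMap_of_maximal_of_localization
    𝔪.primeCompl (Localization.AtPrime 𝔪)
    (I := maximalIdeal (Localization.AtPrime 𝔪)) (J := 𝔪)
    (H := hunder.ge) (by rw [hunder]; infer_instance)
  obtain ⟨q, hq⟩ := hsurj (Ideal.Quotient.mk _ r)
  obtain ⟨c, rfl⟩ := h𝔪 q
  refine ⟨c, ?_⟩
  have h1 : residue (Localization.AtPrime 𝔪) r = Ideal.Quotient.mk _ r := rfl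
  rw [h1, ← hq]
  rfl

end Fermat.Agent.S26.F.FlatMap
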